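import Mathlib

/-!
# Lattices in the dual of a complex vector space and independence of endomorphisms

Abstract input for the integral structure on `S₂(Γ₀(N))` (S23):

* `IntLattice.linearIndependent_real_of_int`: if `Λ` is a full lattice in the dual of `V` (finitely
  generated, spanning over `ℝ`, of rank `≤ 2 dim V`), then a `ℤ`-linearly independent family of
  endomorphisms of `V` whose transposes preserve `Λ` is `ℝ`-linearly independent.
* `IntLattice.linearIndependent_complex_of_real`: `ℝ`-independent endomorphisms commuting with a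
  real structure are `ℂ`-independent.
-/

set_option autoImplicit false

namespace Fermat.Agent.X0
namespace IntLattice

open Module

section basic
variable {V : Type*} [AddCommGroup V] [Module ℂ V]

/-- the `ℤ`-linear map `l ↦ l ∘ t` on the dual. -/
noncomputable def precomp (t : Module.End ℂ V) : Module.Dual ℂ V →ₗ[ℤ] Module.Dual ℂ V :=
  (Module.Dual.transpose (R := ℂ) t).restrictScalars ℤ

lemma precomp_apply (t : Module.End ℂ V) (l : Module.Dual ℂ V) : precomp t l = l ∘ₗ t := rfl

lemma real_smul_end (a : ℝ) (T : Module.End ℂ V) : a • T = (a : ℂ) • T := rfl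

lemma real_smul_dual (a : ℝ) (l : Module.Dual ℂ V) : a • l = (a : ℂ) • l := rfl

lemma comp_finset_sum {ι : Type*} (l : Module.Dual ℂ V) (s : Finset ι) (f : ι → Module.End ℂ V) :
    l ∘ₗ (∑ i ∈ s, f i) = ∑ i ∈ s, l ∘ₗ f i := by
  ext v
  simp

lemma comp_real_smul (l : Module.Dual ℂ V) (a : ℝ) (T : Module.End ℂ V) :
    l ∘ₗ (a • T) = a • (l ∘ₗ T) := by
  rw [real_smul_end, real_smul_dual, LinearMap.comp_smul]

lemma comp_int_smul (l : Module.Dual ℂ V) (n : ℤ) (T : Module.End ℂ V) :
    l ∘ₗ (n • T) = n • (l ∘ₗ T) := by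
  ext v
  simp

/-- **From `ℝ`- to `ℂ`-independence** for endomorphisms commuting with a real structure `c`
(an `ℝ`-linear surjection with `c (i v) = - i c v`). -/
theorem linearIndependent_complex_of_real (c : V →ₗ[ℝ] V)
    (hI : ∀ v, c (Complex.I • v) = -(Complex.I • c v)) (hsurj : Function.Surjective c)
    {ι : Type*} (t : ι → Module.End ℂ V) (hcomm : ∀ i v, t i (c v) = c (t i v))
    (hind : LinearIndependent ℝ t) : LinearIndependent ℂ t := by
  classical
  rw [linearIndependent_iff']
  intro s g hg
  set A : Module.End ℂ V := ∑ i ∈ s, (g i).re • t i with hA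
  set B : Module.End ℂ V := ∑ i ∈ s, (g i).im • t i with hB
  have hAB : A + Complex.I • B = 0 := by
    rw [← hg, hA, hB, Finset.smul_sum, ← Finset.sum_add_distrib]
    refine Finset.sum_congr rfl fun i _ => ?_
    rw [real_smul_end, real_smul_end, smul_smul, ← add_smul]
    congr 1
    rw [mul_comm]
    exact Complex.re_add_im (g i)
  have hAc : ∀ v, A (c v) = c (A v) := by
    intro v
    simp only [hA, LinearMap.sum_apply, LinearMap.smul_apply, map_sum, hcomm]
    refine Finset.sum_congr rfl fun i _ => ?_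
    rw [map_smul]
  have hBc : ∀ v, B (c v) = c (B v) := by
    intro v
    simp only [hB, LinearMap.sum_apply, LinearMap.smul_apply, map_sum, hcomm]
    refine Finset.sum_congr rfl fun i _ => ?_
    rw [map_smul]
  have h1 : ∀ w, A w + Complex.I • B w = 0 := by
    intro w
    have := congrArg (fun T : Module.End ℂ V => T w) hAB
    simpa using this
  have h2 : ∀ w, A w - Complex.I • B w = 0 := by
    intro w
    obtain ⟨v, rfl⟩ := hsurj w
    have := congrArg c (h1 v)
    rw [map_add, hI, map_zero, ← hAc, ← hBc] at this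
    rw [sub_eq_add_neg]; exact this
  have hA0 : A = 0 := by
    ext w
    have e1 := h1 w
    have e2 := h2 w
    have : (2 : ℂ) • A w = 0 := by
      rw [two_smul]
      have := congrArg₂ (· + ·) e1 e2
      simpa using this
    rw [LinearMap.zero_apply]
    exact (smul_eq_zero.mp this).resolve_left two_ne_zero
  have hB0 : B = 0 := by
    ext w
    have e1 := h1 w
    rw [hA0, LinearMap.zero_apply, zero_add] at e1
    rw [LinearMap.zero_apply]
    exact (smul_eq_zero.mp e1).resolve_left Complex.I_ne_zero
  intro i hi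
  have hre := linearIndependent_iff'.mp hind s (fun i => (g i).re) hA0 i hi
  have him := linearIndependent_iff'.mp hind s (fun i => (g i).im) hB0 i hi
  exact Complex.ext hre him

end basic

variable {V : Type*} [AddCommGroup V] [Module ℂ V] [FiniteDimensional ℂ V]

/-- functionals vanishing on the range of `T`, as a real subspace -/
lemma eq_zero_of_forall_mem_comp_eq_zero (Λ : Submodule ℤ (Module.Dual ℂ V))
    (hspan : Submodule.span ℝ (Λ : Set (Module.Dual ℂ V)) = ⊤) (T : Module.End ℂ V)
    (h : ∀ l ∈ Λ, l ∘ₗ T = 0) : T = 0 := by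
  have hall : ∀ l : Module.Dual ℂ V, l ∘ₗ T = 0 := by
    intro l
    have hl : l ∈ Submodule.span ℝ (Λ : Set (Module.Dual ℂ V)) := by rw [hspan]; trivial
    induction hl using Submodule.span_induction with
    | mem x hx => exact h x hx
    | zero => simp
    | add x y _ _ hx hy => rw [LinearMap.add_comp, hx, hy, add_zero]
    | smul a x _ hx => rw [real_smul_dual, LinearMap.smul_comp, hx, smul_zero]
  ext v
  rw [LinearMap.zero_apply, ← Module.forall_dual_apply_eq_zero_iff ℂ]
  intro l
  have := congrArg (fun f => f v) (hall l)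
  simpa using this

/-- **From `ℤ`- to `ℝ`-independence.**  Let `Λ` be a finitely generated subgroup of the dual of a
finite dimensional complex vector space `V` which spans the dual over `ℝ` and has rank at most
`2 dim V` (so: a full lattice).  Then a `ℤ`-linearly independent family of endomorphisms of `V`
whose transposes preserve `Λ` is `ℝ`-linearly independent. -/
theorem linearIndependent_real_of_int (Λ : Submodule ℤ (Module.Dual ℂ V)) (hfg : Λ.FG)
    (hspan : Submodule.span ℝ (Λ : Set (Module.Dual ℂ V)) = ⊤)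
    (hrank : finrank ℤ Λ ≤ 2 * finrank ℂ V)
    {ι : Type*} (t : ι → Module.End ℂ V) (ht : ∀ i, ∀ l ∈ Λ, l ∘ₗ t i ∈ Λ)
    (hind : LinearIndependent ℤ t) : LinearIndependent ℝ t := by
  classical
  have : Module.Finite ℤ Λ := Module.Finite.iff_fg.mpr hfg
  have : Module.Free ℤ Λ := inferInstance
  set ρ := finrank ℤ Λ with hρ
  let b : Basis (Fin ρ) ℤ Λ := Module.finBasis ℤ Λ
  let lam : Fin ρ → Module.Dual ℂ V := fun k => (b k : Module.Dual ℂ V)
  -- `lam` spans over ℝ
  have hΛspan : (Λ : Set (Module.Dual ℂ V)) ⊆ Submodule.span ℝ (Set.range lam) := by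
    intro l hl
    have h1 : (⟨l, hl⟩ : Λ) ∈ Submodule.span ℤ (Set.range b) := by rw [b.span_eq]; trivial
    have h2 : ∀ x : Λ, x ∈ Submodule.span ℤ (Set.range b) →
        (x : Module.Dual ℂ V) ∈ Submodule.span ℝ (Set.range lam) := by
      intro x hx
      induction hx using Submodule.span_induction with
      | mem y hy =>
        obtain ⟨k, rfl⟩ := hy
        exact Submodule.subset_span ⟨k, rfl⟩
      | zero => simp
      | add y z _ _ hy hz =>
        rw [Submodule.coe_add]; exact add_mem hy hz
      | smul n y _ hy =>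
        rw [Submodule.coe_smul, ← Int.cast_smul_eq_zsmul ℝ]
        exact Submodule.smul_mem _ _ hy
    exact h2 ⟨l, hl⟩ h1
  have hlamspan : Submodule.span ℝ (Set.range lam) = ⊤ := by
    rw [eq_top_iff, ← hspan]
    exact Submodule.span_le.mpr hΛspan
  have hdim : finrank ℝ (Module.Dual ℂ V) = 2 * finrank ℂ V := by
    rw [finrank_real_of_complex, Subspace.dual_finrank_eq]
  have hcard : Fintype.card (Fin ρ) = finrank ℝ (Module.Dual ℂ V) := by
    rw [Fintype.card_fin]
    apply le_antisymm
    · rw [hdim]; exact hrank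
    · have h := finrank_span_le_card (R := ℝ) (Set.range lam)
      rw [hlamspan, finrank_top] at h
      refine h.trans ?_
      rw [Set.toFinset_range]
      exact (Finset.card_image_le).trans (by simp)
  have hlamind : LinearIndependent ℝ lam :=
    linearIndependent_of_top_le_span_of_card_eq_finrank hlamspan.ge hcard
  -- the induced endomorphisms of `Λ`
  let φ : ι → (Λ →ₗ[ℤ] Λ) := fun i => (precomp (t i)).restrict (ht i)
  have hφ : ∀ i (l : Λ), ((φ i l : Λ) : Module.Dual ℂ V) = (l : Module.Dual ℂ V) ∘ₗ t i :=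
    fun i l => rfl
  have hφind : LinearIndependent ℤ φ := by
    rw [linearIndependent_iff']
    intro s n hn i hi
    have hT : ∑ j ∈ s, n j • t j = 0 := by
      apply eq_zero_of_forall_mem_comp_eq_zero Λ hspan
      intro l hl
      have := congrArg (fun f : Λ →ₗ[ℤ] Λ => ((f ⟨l, hl⟩ : Λ) : Module.Dual ℂ V)) hn
      simp only [LinearMap.sum_apply, LinearMap.smul_apply, Submodule.coe_sum, Submodule.coe_smul,
        hφ, LinearMap.zero_apply, Submodule.coe_zero] at this
      rw [comp_finset_sum]
      have h' : ∀ j ∈ s, l ∘ₗ (n j • t j) = n j • (l ∘ₗ t j) :=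
        fun j _ => comp_int_smul l (n j) (t j)
      rw [Finset.sum_congr rfl h']
      exact this
    exact linearIndependent_iff'.mp hind s n hT i hi
  -- matrices
  let M : ι → Matrix (Fin ρ) (Fin ρ) ℤ := fun i => LinearMap.toMatrix b b (φ i)
  have hMind : LinearIndependent ℤ M :=
    hφind.map' (LinearMap.toMatrix b b : (Λ →ₗ[ℤ] Λ) ≃ₗ[ℤ] Matrix (Fin ρ) (Fin ρ) ℤ).toLinearMap
      (LinearEquiv.ker _)
  let v : ι → (Fin ρ × Fin ρ) → ℤ := fun i p => M i p.1 p.2
  have hvind : LinearIndependent ℤ v := by
    have := hMind.map' ((LinearEquiv.curry ℤ ℤ (Fin ρ) (Fin ρ)).symm :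
      (Fin ρ → Fin ρ → ℤ) ≃ₗ[ℤ] (Fin ρ × Fin ρ → ℤ)).toLinearMap (LinearEquiv.ker _)
    exact this
  have hvR : LinearIndependent ℝ (fun i => algebraMap ℤ ℝ ∘ v i) :=
    linearIndependent_algebraMap_comp_iff.mpr hvind
  -- expansion of `lam j ∘ t i`
  have hexp : ∀ i j, lam j ∘ₗ t i = ∑ k, ((M i k j : ℤ) : ℝ) • lam k := by
    intro i j
    have h1 : φ i (b j) = ∑ k, (M i k j) • b k := by
      have := b.sum_repr (φ i (b j))
      rw [← this]
      refine Finset.sum_congr rfl fun k _ => ?_
      show (b.repr ((φ i) (b j))) k • b k = (LinearMap.toMatrix b b (φ i) k j) • b k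
      rw [LinearMap.toMatrix_apply]
    have h2 := congrArg (fun x : Λ => (x : Module.Dual ℂ V)) h1
    simp only [hφ, Submodule.coe_sum, Submodule.coe_smul] at h2
    rw [h2]
    refine Finset.sum_congr rfl fun k _ => ?_
    rw [Int.cast_smul_eq_zsmul ℝ]
  rw [linearIndependent_iff']
  intro s a ha i hi
  have hzero : ∑ i ∈ s, a i • (fun p => (algebraMap ℤ ℝ) (v i p)) = 0 := by
    funext p
    obtain ⟨k, j⟩ := p
    have h1 : lam j ∘ₗ (∑ i ∈ s, a i • t i) = 0 := by rw [ha, LinearMap.comp_zero]
    rw [comp_finset_sum] at h1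
    have h2 : ∑ i ∈ s, lam j ∘ₗ (a i • t i)
        = ∑ k', (∑ i ∈ s, a i * ((M i k' j : ℤ) : ℝ)) • lam k' := by
      simp_rw [comp_real_smul, hexp, Finset.smul_sum, smul_smul, Finset.sum_smul]
      rw [Finset.sum_comm]
    rw [h2] at h1
    have h3 := Fintype.linearIndependent_iff.mp hlamind _ h1 k
    simp only [Finset.sum_apply, Pi.smul_apply, smul_eq_mul, Pi.zero_apply]
    exact h3
  exact linearIndependent_iff'.mp hvR s a hzero i hi


/-- **From `ℤ`- to `ℂ`-independence**: combination of the two steps. -/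
theorem linearIndependent_complex_of_int (Λ : Submodule ℤ (Module.Dual ℂ V)) (hfg : Λ.FG)
    (hspan : Submodule.span ℝ (Λ : Set (Module.Dual ℂ V)) = ⊤)
    (hrank : finrank ℤ Λ ≤ 2 * finrank ℂ V)
    (c : V →ₗ[ℝ] V) (hI : ∀ v, c (Complex.I • v) = -(Complex.I • c v))
    (hsurj : Function.Surjective c)
    {ι : Type*} (t : ι → Module.End ℂ V) (ht : ∀ i, ∀ l ∈ Λ, l ∘ₗ t i ∈ Λ)
    (hcomm : ∀ i v, t i (c v) = c (t i v))
    (hind : LinearIndependent ℤ t) : LinearIndependent ℂ t :=
  linearIndependent_complex_of_real c hI hsurj t hcomm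
    (linearIndependent_real_of_int Λ hfg hspan hrank t ht hind)

end IntLattice
end Fermat.Agent.X0
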