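import Mathlib
import Fermat.Prelude.Def_CuspForm_HeckeAlgebra
import Fermat.Prelude.Def_ModularCurve_PeriodHomPair
import Fermat.Prelude.Thm_ModularFormClass_qCoeff_heckeT
import Fermat.Prelude.Thm_ModularFormClass_qCoeff_heckeU
import Fermat.Prelude.Thm_UpperHalfPlane_eq_of_forall_qCoeff_eq

/-!
# X0 / Int / I1: the real structure on `S_k(Γ₀(N))`

* `conjForm f` : the cusp form `τ ↦ conj (f (-conj τ))` (Mathlib `CuspForm.translate` by
  `J = diag(-1, 1)`, which normalises `Γ₀(N)`), `conjForm_apply`, `conjForm_conjForm`,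
  `conjForm_add`, `conjForm_smul` (conjugate linear), `conjFormR` (as an `ℝ`-linear map);
* `qCoeff_conjForm` : its `q`-expansion coefficients are the conjugates;
* `cuspForm_ext_qCoeff`, `qCoeff_heckeTLin`, `qCoeff_heckeULin`;
* `conjForm_heckeTLin`, `conjForm_heckeULin`, `commutesConj_of_mem_heckeAlgebra` : the Hecke
  algebra commutes with the conjugation.
-/

set_option autoImplicit false

open UpperHalfPlane hiding I
open Complex Filter Function CongruenceSubgroup ModularCurve.Period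
open scoped Manifold MatrixGroups ModularForm Topology ComplexConjugate Pointwise

namespace Fermat.Agent.X0

/-- Conjugation by `J = diag(-1, 1)` on `SL(2, ℤ) ⊆ GL(2, ℝ)` is `jConjSL`. -/
theorem J_mul_mapGL_mul_J (γ : SL(2, ℤ)) :
    J * (Matrix.SpecialLinearGroup.mapGL ℝ γ : GL (Fin 2) ℝ) * J =
      Matrix.SpecialLinearGroup.mapGL ℝ (jConjSL γ) := by
  ext i j
  fin_cases i <;> fin_cases j <;>
    simp [Matrix.mul_apply, Fin.sum_univ_two, jConjMat, Matrix.SpecialLinearGroup.mapGL,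
      Matrix.vecMul, dotProduct]

theorem J_inv : (J : GL (Fin 2) ℝ)⁻¹ = J := by
  rw [inv_eq_iff_eq_inv, eq_inv_iff_mul_eq_one, ← sq, J_sq]

theorem conjAct_J_Gamma0 (N : ℕ) :
    (ConjAct.toConjAct (J : GL (Fin 2) ℝ)⁻¹) •
      ((Gamma0 N).map (Matrix.SpecialLinearGroup.mapGL ℝ) : Subgroup (GL (Fin 2) ℝ)) =
      (Gamma0 N).map (Matrix.SpecialLinearGroup.mapGL ℝ) := by
  ext g
  rw [Subgroup.mem_pointwise_smul_iff_inv_smul_mem, ← ConjAct.toConjAct_inv, inv_inv,
    ConjAct.toConjAct_smul, J_inv]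
  constructor
  · rintro ⟨γ, hγ, h⟩
    refine ⟨jConjSL γ, jConjSL_mem_Gamma0 hγ, ?_⟩
    rw [← J_mul_mapGL_mul_J, h]
    have hJ : (J : GL (Fin 2) ℝ) * J = 1 := by rw [← sq, J_sq]
    calc J * (J * g * J) * J = (J * J) * g * (J * J) := by group
      _ = g := by rw [hJ, one_mul, mul_one]
  · rintro ⟨γ, hγ, rfl⟩
    exact ⟨jConjSL γ, jConjSL_mem_Gamma0 hγ, (J_mul_mapGL_mul_J γ).symm⟩

theorem cuspForm_cast_apply {Γ Γ' : Subgroup (GL (Fin 2) ℝ)} {k : ℤ} (h : Γ' = Γ)
    (f : CuspForm Γ' k) (τ : ℍ) : (h ▸ f : CuspForm Γ k) τ = f τ := by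
  subst h
  rfl

/-- The conjugate cusp form `τ ↦ conj (f (-conj τ))`. -/
noncomputable def conjForm {N : ℕ} {k : ℤ} (f : CuspForm (Gamma0 N) k) :
    CuspForm (Gamma0 N) k :=
  (conjAct_J_Gamma0 N) ▸ CuspForm.translate f J

theorem conjForm_apply {N : ℕ} {k : ℤ} (f : CuspForm (Gamma0 N) k) (τ : ℍ) :
    conjForm f τ = conj (f (J • τ)) := by
  unfold conjForm
  rw [cuspForm_cast_apply]
  show ((f : ℍ → ℂ) ∣[k] J) τ = _
  rw [ModularForm.slash_apply]
  simp

theorem conjForm_conjForm {N : ℕ} {k : ℤ} (f : CuspForm (Gamma0 N) k) :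
    conjForm (conjForm f) = f := by
  ext τ
  rw [conjForm_apply, conjForm_apply, Complex.conj_conj, ← mul_smul, ← sq, J_sq, one_smul]

theorem conjForm_add {N : ℕ} {k : ℤ} (f g : CuspForm (Gamma0 N) k) :
    conjForm (f + g) = conjForm f + conjForm g := by
  ext τ
  simp [conjForm_apply]

theorem conjForm_smul {N : ℕ} {k : ℤ} (c : ℂ) (f : CuspForm (Gamma0 N) k) :
    conjForm (c • f) = conj c • conjForm f := by
  ext τ
  simp [conjForm_apply]


theorem conj_qParam_J_smul (τ : ℍ) :
    conj (Periodic.qParam 1 ((J • τ : ℍ) : ℂ)) = Periodic.qParam 1 (τ : ℂ) := by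
  rw [coe_J_smul]
  unfold Periodic.qParam
  rw [← Complex.exp_conj]
  congr 1
  simp only [map_div₀, map_mul, map_neg, Complex.conj_conj, Complex.conj_I, map_ofNat,
    Complex.conj_ofReal, map_one, Complex.ofReal_one]
  ring

theorem one_mem_strictPeriods_Gamma0' (N : ℕ) :
    (1 : ℝ) ∈ ((Gamma0 N).map (Matrix.SpecialLinearGroup.mapGL ℝ) :
      Subgroup (GL (Fin 2) ℝ)).strictPeriods := by
  simp [strictPeriods_Gamma0]

/-- The `q`-expansion of the conjugate form has the conjugate coefficients. -/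
theorem qCoeff_conjForm {N : ℕ} [NeZero N] {k : ℤ} (f : CuspForm (Gamma0 N) k) (n : ℕ) :
    ModularFormClass.qCoeff (conjForm f) n = conj (ModularFormClass.qCoeff f n) := by
  unfold ModularFormClass.qCoeff
  symm
  refine ModularFormClass.qExpansion_coeff_unique (c := fun m => conj ((qExpansion 1 f).coeff m))
    one_pos (one_mem_strictPeriods_Gamma0' N) (f := conjForm f) (fun τ => ?_) n
  have h1 := ModularForm.hasSum_qExpansion f one_pos (one_mem_strictPeriods_Gamma0' N)
    (J • τ)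
  have h2 := h1.star
  rw [conjForm_apply]
  convert h2 using 2 with m
  · simp only [smul_eq_mul, star_mul', star_pow]
    congr 2
    exact (conj_qParam_J_smul τ).symm
  · rfl


/-- A cusp form on `Γ₀(N)` is determined by its `q`-expansion. -/
theorem cuspForm_ext_qCoeff {N : ℕ} [NeZero N] {k : ℤ} {f g : CuspForm (Gamma0 N) k}
    (h : ∀ n, ModularFormClass.qCoeff f n = ModularFormClass.qCoeff g n) : f = g := by
  apply DFunLike.coe_injective
  have hf : Function.Periodic ((f : ℍ → ℂ) ∘ ofComplex) 1 := by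
    have := SlashInvariantFormClass.periodic_comp_ofComplex f (one_mem_strictPeriods_Gamma0' N)
    simpa using this
  have hg : Function.Periodic ((g : ℍ → ℂ) ∘ ofComplex) 1 := by
    have := SlashInvariantFormClass.periodic_comp_ofComplex g (one_mem_strictPeriods_Gamma0' N)
    simpa using this
  exact UpperHalfPlane.eq_of_forall_qCoeff_eq hf (ModularFormClass.holo f)
    (ModularFormClass.bdd_at_infty f) hg (ModularFormClass.holo g)
    (ModularFormClass.bdd_at_infty g) h

theorem qCoeff_heckeTLin {N : ℕ} [NeZero N] (k : ℤ) {p : ℕ} (hp : p.Prime) (hpN : ¬ p ∣ N)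
    (f : CuspForm (Gamma0 N) k) (n : ℕ) :
    ModularFormClass.qCoeff (CuspForm.heckeTLin k hp hpN f) n =
      ModularForm.coeffHeckeT k p (ModularFormClass.qCoeff f) n := by
  rw [CuspForm.coe_heckeTLin_apply]
  exact ModularFormClass.qCoeff_heckeT f (one_mem_strictPeriods_Gamma0' N) hp.ne_zero n

theorem qCoeff_heckeULin {N : ℕ} [NeZero N] (k : ℤ) {p : ℕ} (hpN : p ∣ N)
    (f : CuspForm (Gamma0 N) k) (n : ℕ) :
    ModularFormClass.qCoeff (CuspForm.heckeULin k hpN f) n =
      ModularForm.coeffHeckeU p (ModularFormClass.qCoeff f) n := by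
  rw [CuspForm.coe_heckeULin_apply]
  have hp : p ≠ 0 := by
    rintro rfl
    exact NeZero.ne N (Nat.eq_zero_of_zero_dvd hpN)
  exact ModularFormClass.qCoeff_heckeU f (one_mem_strictPeriods_Gamma0' N) hp n

theorem conjForm_heckeTLin {N : ℕ} [NeZero N] (k : ℤ) {p : ℕ} (hp : p.Prime) (hpN : ¬ p ∣ N)
    (f : CuspForm (Gamma0 N) k) :
    conjForm (CuspForm.heckeTLin k hp hpN f) = CuspForm.heckeTLin k hp hpN (conjForm f) := by
  apply cuspForm_ext_qCoeff
  intro n
  rw [qCoeff_conjForm, qCoeff_heckeTLin, qCoeff_heckeTLin, ModularForm.coeffHeckeT_apply,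
    ModularForm.coeffHeckeT_apply, qCoeff_conjForm]
  split_ifs with h
  · rw [qCoeff_conjForm]
    simp [map_zpow₀]
  · simp

theorem conjForm_heckeULin {N : ℕ} [NeZero N] (k : ℤ) {p : ℕ} (hpN : p ∣ N)
    (f : CuspForm (Gamma0 N) k) :
    conjForm (CuspForm.heckeULin k hpN f) = CuspForm.heckeULin k hpN (conjForm f) := by
  apply cuspForm_ext_qCoeff
  intro n
  rw [qCoeff_conjForm, qCoeff_heckeULin, qCoeff_heckeULin, ModularForm.coeffHeckeU_apply,
    ModularForm.coeffHeckeU_apply, qCoeff_conjForm]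


/-- The set of endomorphisms commuting with the conjugation. -/
def CommutesConj {N : ℕ} {k : ℤ} (t : Module.End ℂ (CuspForm (Gamma0 N) k)) : Prop :=
  ∀ f, conjForm (t f) = t (conjForm f)

theorem commutesConj_of_mem_heckeAlgebra {N : ℕ} [NeZero N] {k : ℤ} {S : Set ℕ}
    {t : Module.End ℂ (CuspForm (Gamma0 N) k)} (ht : t ∈ CuspForm.heckeAlgebra N k S) :
    CommutesConj t := by
  unfold CuspForm.heckeAlgebra at ht
  induction ht using Algebra.adjoin_induction with
  | mem x hx =>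
    rcases hx with ⟨ℓ, hℓ, hℓN, -, rfl⟩ | ⟨q, hqN, -, -, rfl⟩
    · exact fun f => conjForm_heckeTLin k hℓ hℓN f
    · exact fun f => conjForm_heckeULin k hqN f
  | algebraMap r =>
    intro f
    have : (algebraMap ℤ (Module.End ℂ (CuspForm (Gamma0 N) k)) r) = (r : ℂ) • LinearMap.id := by
      ext g
      simp
    rw [this]
    simp only [LinearMap.smul_apply, LinearMap.id_coe, id_eq]
    rw [conjForm_smul]
    simp
  | add x y _ _ hx hy =>
    intro f
    rw [LinearMap.add_apply, conjForm_add, hx f, hy f, LinearMap.add_apply]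
  | mul x y _ _ hx hy =>
    intro f
    rw [Module.End.mul_apply, hx, hy, Module.End.mul_apply]

theorem conjForm_zero {N : ℕ} {k : ℤ} : conjForm (0 : CuspForm (Gamma0 N) k) = 0 := by
  ext τ
  simp [conjForm_apply]

/-- The conjugation as an `ℝ`-linear map. -/
noncomputable def conjFormR (N : ℕ) (k : ℤ) :
    CuspForm (Gamma0 N) k →ₗ[ℝ] CuspForm (Gamma0 N) k where
  toFun := conjForm
  map_add' := conjForm_add
  map_smul' a f := by
    show conjForm ((a : ℂ) • f) = (a : ℂ) • conjForm f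
    rw [conjForm_smul, Complex.conj_ofReal]

@[simp] theorem conjFormR_apply {N : ℕ} {k : ℤ} (f : CuspForm (Gamma0 N) k) :
    conjFormR N k f = conjForm f := rfl

theorem conjFormR_I_smul {N : ℕ} {k : ℤ} (f : CuspForm (Gamma0 N) k) :
    conjFormR N k (Complex.I • f) = -(Complex.I • conjFormR N k f) := by
  rw [conjFormR_apply, conjFormR_apply, conjForm_smul, Complex.conj_I]
  exact neg_smul _ _

theorem conjFormR_surjective (N : ℕ) (k : ℤ) : Function.Surjective (conjFormR N k) :=
  fun f => ⟨conjForm f, conjForm_conjForm f⟩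

end Fermat.Agent.X0
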