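import Mathlib
import Fermat.Agent.S22.HeckeStable
import Fermat.Agent.S22.Separation
import Fermat.Agent.S22.Abstract
import Fermat.Agent.X0.ES.Main
import Fermat.Agent.X0.Int.Lattice
import Fermat.Agent.X0.Int.RealStructure

/-!
# X0 / Int / I3 (concrete part): the lattice of periods of `S₂(Γ₀(N))`

`V = CuspForm (Gamma0 N) 2`.  `perLattice N ≤ Module.Dual ℂ V` is the subgroup of the period
functionals `f ↦ periodMap N f γ`, `γ ∈ Γ₀(N)`.

* `periodLattice_one_eq_map` : the `S22` lattice `periodLattice N 1` is `2πi • perLattice N`;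
* `perLattice_fg`, `perLattice_heckeT_stable`, `perLattice_heckeU_stable`,
  `comp_mem_perLattice_of_mem_heckeAlgebra` : finitely generated and stable under the Hecke algebra;
* `span_real_perLattice` : it spans the dual over `ℝ` (real parts of periods separate cusp forms);
* `finrank_perLattice_le` : its rank is at most `dim_ℚ Hom_par(Γ₀(N), ℚ)`, hence
  `finrank_perLattice_le_two_mul_genus : rank ≤ 2 g` and, **assuming the lower bound
  `g ≤ dim S₂(Γ₀(N))` of `S20`**, `finrank_perLattice_le_two_mul_finrank : rank ≤ 2 dim V`;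
* `linearIndependent_complex_of_mem_heckeAlgebra` : under that hypothesis, a `ℤ`-linearly independent
  family of elements of the Hecke algebra `CuspForm.heckeAlgebra N 2 S` is `ℂ`-linearly independent
  in `End_ℂ V`;
* `linearIndependent_complex_heckeAlgebra_subtype` : the same for a family in the subtype.
-/

set_option autoImplicit false

open CongruenceSubgroup UpperHalfPlane ModularCurve ModularCurve.Period
open Fermat.Agent.S22 Fermat.Agent.X0
open scoped Real MatrixGroups ModularForm Manifold

namespace Fermat.Agent.X0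
namespace IntPeriod

section abstract

open Module

variable {V : Type*} [AddCommGroup V] [Module ℂ V] [FiniteDimensional ℂ V]

/-- `v ↦ (l ↦ Re (l v))`, from `V` to the real dual of the complex dual. -/
noncomputable def reEval : V →ₗ[ℝ] (Module.Dual ℂ V →ₗ[ℝ] ℝ) where
  toFun v :=
    { toFun := fun l => (l v).re
      map_add' := fun l l' => by simp
      map_smul' := fun a l => by
        show ((a • l) v).re = a • (l v).re
        have : (a • l) v = (a : ℂ) * l v := rfl
        rw [this]; simp }
  map_add' v w := by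
    ext l; simp
  map_smul' a v := by
    ext l
    show (l (a • v)).re = a • (l v).re
    have : l (a • v) = (a : ℂ) * l v := by
      have : a • v = (a : ℂ) • v := rfl
      rw [this, map_smul, smul_eq_mul]
    rw [this]; simp

omit [FiniteDimensional ℂ V] in
lemma reEval_apply (v : V) (l : Module.Dual ℂ V) : reEval v l = (l v).re := rfl

lemma reEval_injective : Function.Injective (reEval (V := V)) := by
  rw [← LinearMap.ker_eq_bot, LinearMap.ker_eq_bot']
  intro v hv
  rw [← Module.forall_dual_apply_eq_zero_iff ℂ]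
  intro l
  have h1 : (l v).re = 0 := by rw [← reEval_apply, hv]; rfl
  have h2 : ((Complex.I • l) v).re = 0 := by rw [← reEval_apply, hv]; rfl
  rw [LinearMap.smul_apply, smul_eq_mul, Complex.mul_re] at h2
  simp at h2
  exact Complex.ext h1 h2

lemma reEval_surjective : Function.Surjective (reEval (V := V)) := by
  have hdim : finrank ℝ V = finrank ℝ (Module.Dual ℂ V →ₗ[ℝ] ℝ) := by
    have : finrank ℝ (Module.Dual ℂ V →ₗ[ℝ] ℝ) = finrank ℝ (Module.Dual ℂ V) :=
      Subspace.dual_finrank_eq (K := ℝ) (V := Module.Dual ℂ V)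
    rw [this, finrank_real_of_complex, finrank_real_of_complex, Subspace.dual_finrank_eq]
  exact (LinearMap.injective_iff_surjective_of_finrank_eq_finrank hdim).mp reEval_injective

/-- a subgroup `Λ` of the dual of `V` spans it over `ℝ` as soon as every `v` with
`Re (l v) = 0` for all `l ∈ Λ` vanishes. -/
theorem span_real_eq_top_of_re_separating (Λ : Submodule ℤ (Module.Dual ℂ V))
    (h : ∀ v : V, (∀ l ∈ Λ, (l v).re = 0) → v = 0) :
    Submodule.span ℝ (Λ : Set (Module.Dual ℂ V)) = ⊤ := by
  by_contra hne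
  obtain ⟨φ, hφ, hle⟩ := Submodule.exists_le_ker_of_lt_top _ (lt_top_iff_ne_top.mpr hne)
  obtain ⟨v, rfl⟩ := reEval_surjective φ
  apply hφ
  have : v = 0 := by
    apply h
    intro l hl
    have := hle (Submodule.subset_span hl)
    rw [LinearMap.mem_ker, reEval_apply] at this
    exact this
  rw [this, map_zero]

end abstract

noncomputable section

variable (N : ℕ) [NeZero N]

/-- the period functional `f ↦ ∫_γ f` on weight two cusp forms -/
def perFun (γ : Gamma0 N) : Module.Dual ℂ (CuspForm (Gamma0 N) 2) where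
  toFun f := periodMap N f (Additive.ofMul γ)
  map_add' f g := by rw [periodMap_add]; rfl
  map_smul' c f := by rw [periodMap_smul]; rfl

@[simp] lemma perFun_apply (γ : Gamma0 N) (f : CuspForm (Gamma0 N) 2) :
    perFun N γ f = periodMap N f (Additive.ofMul γ) := rfl

/-- `γ ↦ (f ↦ ∫_γ f)` as a homomorphism -/
def perHom : Additive (Gamma0 N) →+ Module.Dual ℂ (CuspForm (Gamma0 N) 2) where
  toFun γ := perFun N (Additive.toMul γ)
  map_zero' := by
    ext f
    simp only [perFun_apply, LinearMap.zero_apply]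
    exact map_zero (periodMap N f)
  map_add' γ δ := by
    ext f
    simp only [perFun_apply, LinearMap.add_apply]
    exact map_add (periodMap N f) γ δ

lemma perHom_apply (γ : Additive (Gamma0 N)) (f : CuspForm (Gamma0 N) 2) :
    perHom N γ f = periodMap N f γ := rfl

/-- the lattice of periods -/
def perLattice : Submodule ℤ (Module.Dual ℂ (CuspForm (Gamma0 N) 2)) :=
  AddSubgroup.toIntSubmodule (perHom N).range

lemma mem_perLattice {l : Module.Dual ℂ (CuspForm (Gamma0 N) 2)} :
    l ∈ perLattice N ↔ ∃ γ : Additive (Gamma0 N), perHom N γ = l := Iff.rfl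

/-- bridge: the S22 Eichler integral of order one is `2πi` times the primitive. -/
lemma eichlerInt_one_eq (f : CuspForm (Gamma0 N) 2) :
    eichlerInt 1 (f : ℍ → ℂ) = fun τ => (2 * π * Complex.I) * eichlerPrim N f τ := by
  symm
  apply IsEichler.eq_eichlerInt
  have h2 : (2 * π * Complex.I : ℂ) ≠ 0 := by simp [Real.pi_ne_zero, Complex.I_ne_zero]
  have hder : ∀ τ : ℍ, HasDerivAt ((fun τ => (2 * π * Complex.I) * eichlerPrim N f τ) ∘ ofComplex)
      ((2 * π * Complex.I) * f τ) τ := fun τ =>
    (eichlerPrim_hasDerivAt N f τ).const_mul _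
  refine ⟨mdiff_of_hasDerivAt hder, ?_, ?_⟩
  · have := (eichlerPrim_tendsto N f).const_mul (2 * π * Complex.I)
    rw [mul_zero] at this
    exact this
  · rw [Function.iterate_one, D_eq_of_hasDerivAt hder]
    funext τ
    field_simp

/-- bridge: the S22 period functional in weight two is `2πi` times the period. -/
lemma periodFunctional_one_zero (γ : Gamma0 N) :
    periodFunctional N 1 γ 0 = (2 * π * Complex.I : ℂ) • perFun N γ := by
  ext f
  rw [periodFunctional_apply, LinearMap.smul_apply, perFun_apply, smul_eq_mul]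
  obtain ⟨hdeg, hev⟩ := periodPoly_spec (m := 1) f γ.2
  have hC : periodPoly 1 (f : ℍ → ℂ) γ = Polynomial.C ((periodPoly 1 (f : ℍ → ℂ) γ).coeff 0) := by
    apply Polynomial.eq_C_of_natDegree_le_zero
    exact natDegree_periodPoly_le 1 _ _
  have h1 := hev UpperHalfPlane.I
  rw [hC, Polynomial.eval_C] at h1
  rw [← h1, periodMap_apply N f γ UpperHalfPlane.I, eichlerInt_one_eq]
  have h0 : ((1 : ℤ) - ((1 : ℕ) : ℤ)) = 0 := by norm_num
  rw [Pi.sub_apply, h0, slash_zero_SL_apply]
  ring

/-- multiplication by `2πi` on the dual, as a `ℤ`-linear map -/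
def mulTwoPiI : Module.Dual ℂ (CuspForm (Gamma0 N) 2) →ₗ[ℤ] Module.Dual ℂ (CuspForm (Gamma0 N) 2) :=
  ((2 * π * Complex.I : ℂ) • (LinearMap.id : Module.Dual ℂ (CuspForm (Gamma0 N) 2) →ₗ[ℂ] _)).restrictScalars ℤ

omit [NeZero N] in
lemma mulTwoPiI_apply (l : Module.Dual ℂ (CuspForm (Gamma0 N) 2)) :
    mulTwoPiI N l = (2 * π * Complex.I : ℂ) • l := rfl

lemma two_pi_I_ne_zero : (2 * π * Complex.I : ℂ) ≠ 0 := by
  simp [Real.pi_ne_zero, Complex.I_ne_zero]

omit [NeZero N] in
lemma mulTwoPiI_injective : Function.Injective (mulTwoPiI N) := by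
  intro l l' h
  rw [mulTwoPiI_apply, mulTwoPiI_apply] at h
  exact smul_right_injective _ two_pi_I_ne_zero h

lemma perLattice_eq_span :
    perLattice N = Submodule.span ℤ (Set.range (perFun N)) := by
  apply le_antisymm
  · rintro l ⟨γ, rfl⟩
    exact Submodule.subset_span ⟨Additive.toMul γ, rfl⟩
  · rw [Submodule.span_le]
    rintro l ⟨γ, rfl⟩
    exact ⟨Additive.ofMul γ, rfl⟩

/-- the S22 period lattice in weight two is `2πi` times the lattice of periods. -/
lemma periodLattice_one_eq_map : periodLattice N 1 = (perLattice N).map (mulTwoPiI N) := by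
  rw [periodLattice_eq_span_range, perLattice_eq_span, Submodule.map_span]
  congr 1
  ext l
  constructor
  · rintro ⟨γ, j, rfl⟩
    refine ⟨perFun N γ, ⟨γ, rfl⟩, ?_⟩
    rw [mulTwoPiI_apply, ← periodFunctional_one_zero]
    congr 1
    exact (Fin.val_eq_zero j).symm
  · rintro ⟨_, ⟨γ, rfl⟩, rfl⟩
    refine ⟨γ, 0, ?_⟩
    rw [mulTwoPiI_apply, ← periodFunctional_one_zero]
    rfl

lemma perLattice_fg : (perLattice N).FG := by
  apply Submodule.fg_of_fg_map_injective (mulTwoPiI N) (mulTwoPiI_injective N)
  rw [← periodLattice_one_eq_map]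
  exact periodLattice_fg

/-- transfer of stability from the S22 lattice -/
lemma comp_mem_perLattice_of_stable (T : Module.End ℂ (CuspForm (Gamma0 N) 2))
    (hT : ∀ l ∈ periodLattice N 1, l ∘ₗ T ∈ periodLattice N 1)
    (l : Module.Dual ℂ (CuspForm (Gamma0 N) 2)) (hl : l ∈ perLattice N) :
    l ∘ₗ T ∈ perLattice N := by
  have h1 : mulTwoPiI N l ∈ periodLattice N 1 := by
    rw [periodLattice_one_eq_map]; exact Submodule.mem_map_of_mem hl
  have h2 := hT _ h1
  rw [periodLattice_one_eq_map] at h2
  obtain ⟨l'', hl'', h3⟩ := h2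
  have : l ∘ₗ T = l'' := by
    apply mulTwoPiI_injective N
    rw [h3, mulTwoPiI_apply, mulTwoPiI_apply, LinearMap.smul_comp]
  rw [this]; exact hl''

lemma perLattice_heckeT_stable {p : ℕ} (hp : p.Prime) (hpN : ¬ p ∣ N)
    (l : Module.Dual ℂ (CuspForm (Gamma0 N) 2)) (hl : l ∈ perLattice N) :
    l ∘ₗ CuspForm.heckeTLin 2 hp hpN ∈ perLattice N :=
  comp_mem_perLattice_of_stable N _
    (fun l hl => periodLattice_heckeT_stable (m := 1) le_rfl hp hpN l hl) l hl

lemma perLattice_heckeU_stable {p : ℕ} (hp : p.Prime) (hpN : p ∣ N)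
    (l : Module.Dual ℂ (CuspForm (Gamma0 N) 2)) (hl : l ∈ perLattice N) :
    l ∘ₗ CuspForm.heckeULin 2 hpN ∈ perLattice N :=
  comp_mem_perLattice_of_stable N _
    (fun l hl => periodLattice_heckeU_stable (m := 1) le_rfl hp hpN l hl) l hl

/-- `perHom` with values in the lattice -/
def perHomΛ : Additive (Gamma0 N) →+ perLattice N where
  toFun γ := ⟨perHom N γ, γ, rfl⟩
  map_zero' := Subtype.ext (map_zero (perHom N))
  map_add' γ δ := Subtype.ext (map_add (perHom N) γ δ)

lemma perHomΛ_surjective : Function.Surjective (perHomΛ N) := by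
  rintro ⟨l, γ, rfl⟩
  exact ⟨γ, rfl⟩

lemma perHomΛ_eq_zero_of_trace (γ : Gamma0 N)
    (h : ((γ : SL(2, ℤ)) : Matrix (Fin 2) (Fin 2) ℤ).trace ^ 2 = 4) :
    perHomΛ N (Additive.ofMul γ) = 0 := by
  apply Subtype.ext
  ext f
  exact periodMap_apply_eq_zero_of_trace N f γ h

/-- rational functionals on the lattice give rational parabolic homomorphisms -/
def dualToParabolic : (perLattice N →ₗ[ℤ] ℚ) →ₗ[ℚ] parabolicHoms ℚ (Gamma0 N) ℚ :=
  LinearMap.codRestrict (parabolicHoms ℚ (Gamma0 N) ℚ)
    { toFun := fun θ => θ.toAddMonoidHom.comp (perHomΛ N)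
      map_add' := fun θ θ' => by ext γ; rfl
      map_smul' := fun q θ => by ext γ; rfl }
    (fun θ γ hγ => by
      show θ (perHomΛ N (Additive.ofMul γ)) = 0
      rw [perHomΛ_eq_zero_of_trace N γ hγ, map_zero])

lemma dualToParabolic_apply (θ : perLattice N →ₗ[ℤ] ℚ) (γ : Additive (Gamma0 N)) :
    ((dualToParabolic N θ : parabolicHoms ℚ (Gamma0 N) ℚ) : Additive (Gamma0 N) →+ ℚ) γ
      = θ (perHomΛ N γ) := rfl

lemma dualToParabolic_injective : Function.Injective (dualToParabolic N) := by
  rw [← LinearMap.ker_eq_bot, LinearMap.ker_eq_bot']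
  intro θ hθ
  ext l
  obtain ⟨γ, rfl⟩ := perHomΛ_surjective N l
  rw [← dualToParabolic_apply, hθ]
  rfl

/-- the rank of the lattice of periods is at most the dimension of the rational parabolic
cohomology. -/
theorem finrank_perLattice_le :
    Module.finrank ℤ (perLattice N) ≤ Module.finrank ℚ (parabolicHoms ℚ (Gamma0 N) ℚ) := by
  have : Module.Finite ℤ (perLattice N) := Module.Finite.iff_fg.mpr (perLattice_fg N)
  have : Module.Free ℤ (perLattice N) := inferInstance
  have := (PD.finrank_parabolicHoms_Gamma0_le N ℚ).1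
  let b := Module.finBasis ℤ (perLattice N)
  have e : (Fin (Module.finrank ℤ (perLattice N)) → ℚ) ≃ₗ[ℚ] (perLattice N →ₗ[ℤ] ℚ) := b.constr ℚ
  have h1 : Module.finrank ℚ (perLattice N →ₗ[ℤ] ℚ) = Module.finrank ℤ (perLattice N) := by
    rw [← LinearEquiv.finrank_eq e, Module.finrank_fintype_fun_eq_card, Fintype.card_fin]
  rw [← h1]
  exact LinearMap.finrank_le_finrank_of_injective (dualToParabolic_injective N)

/-- the lattice of periods spans the dual over `ℝ`. -/
theorem span_real_perLattice :
    Submodule.span ℝ ((perLattice N : Submodule ℤ (Module.Dual ℂ (CuspForm (Gamma0 N) 2))) :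
      Set (Module.Dual ℂ (CuspForm (Gamma0 N) 2))) = ⊤ := by
  have := finite_cuspForm_Gamma0_two N
  apply span_real_eq_top_of_re_separating
  intro f hf
  apply eq_zero_of_periodMap_re_eq_zero' N f
  intro γ
  exact hf (perHom N γ) ⟨γ, rfl⟩

/-- the rank of the lattice of periods is at most `2 g`. -/
theorem finrank_perLattice_le_two_mul_genus :
    (Module.finrank ℤ (perLattice N) : ℚ) ≤ 2 * ModularCurve.genusFormula N := by
  have h1 : (Module.finrank ℤ (perLattice N) : ℚ) ≤
      (Module.finrank ℚ (parabolicHoms ℚ (Gamma0 N) ℚ) : ℚ) := by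
    exact_mod_cast finrank_perLattice_le N
  exact h1.trans (PD.finrank_parabolicHoms_Gamma0_le N ℚ).2

/-- assuming the lower bound `g ≤ dim S₂(Γ₀(N))`, the lattice of periods has rank at most
`2 dim S₂(Γ₀(N))` (so that it is a genuine lattice in the dual). -/
theorem finrank_perLattice_le_two_mul_finrank
    (h20 : ModularCurve.genusFormula N ≤ (Module.finrank ℂ (CuspForm (Gamma0 N) 2) : ℚ)) :
    Module.finrank ℤ (perLattice N) ≤ 2 * Module.finrank ℂ (CuspForm (Gamma0 N) 2) := by
  have h1 := finrank_perLattice_le_two_mul_genus N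
  have h2 : (Module.finrank ℤ (perLattice N) : ℚ) ≤
      ((2 * Module.finrank ℂ (CuspForm (Gamma0 N) 2) : ℕ) : ℚ) := by
    push_cast
    linarith
  exact_mod_cast h2

/-- the lattice of periods is stable under every element of the Hecke algebra. -/
theorem comp_mem_perLattice_of_mem_heckeAlgebra {S : Set ℕ}
    {t : Module.End ℂ (CuspForm (Gamma0 N) 2)} (ht : t ∈ CuspForm.heckeAlgebra N 2 S)
    (l : Module.Dual ℂ (CuspForm (Gamma0 N) 2)) (hl : l ∈ perLattice N) :
    l ∘ₗ t ∈ perLattice N := by
  refine comp_mem_of_mem_adjoin (perLattice N) (CuspForm.heckeGenerators N 2 S) ?_ ht l hl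
  rintro T (⟨ℓ, hℓ, hℓN, -, rfl⟩ | ⟨q, hqN, hq, -, rfl⟩) l hl
  · exact perLattice_heckeT_stable N hℓ hℓN l hl
  · exact perLattice_heckeU_stable N hq hqN l hl

/-- **Linear independence over `ℂ` of the Hecke algebra** (general real structure): assuming the
lower bound `g ≤ dim S₂(Γ₀(N))`, a `ℤ`-linearly independent family of elements of the Hecke algebra
is `ℂ`-linearly independent. -/
theorem linearIndependent_complex_of_mem_heckeAlgebra
    (h20 : ModularCurve.genusFormula N ≤ (Module.finrank ℂ (CuspForm (Gamma0 N) 2) : ℚ))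
    {S : Set ℕ} {ι : Type*} (t : ι → Module.End ℂ (CuspForm (Gamma0 N) 2))
    (ht : ∀ i, t i ∈ CuspForm.heckeAlgebra N 2 S) (hind : LinearIndependent ℤ t) :
    LinearIndependent ℂ t := by
  have := finite_cuspForm_Gamma0_two N
  refine IntLattice.linearIndependent_complex_of_int (perLattice N) (perLattice_fg N)
    (span_real_perLattice N) (finrank_perLattice_le_two_mul_finrank N h20)
    (conjFormR N 2) (fun v => conjFormR_I_smul v) (conjFormR_surjective N 2) t
    (fun i l hl => comp_mem_perLattice_of_mem_heckeAlgebra N (ht i) l hl) ?_ hind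
  intro i v
  exact (commutesConj_of_mem_heckeAlgebra (ht i) v).symm

/-- the same for a family in the subtype: a `ℤ`-linearly independent family in the Hecke algebra
`𝕋 = CuspForm.heckeAlgebra N 2 S` is `ℂ`-linearly independent in `End_ℂ S₂(Γ₀(N))`. -/
theorem linearIndependent_complex_heckeAlgebra_subtype
    (h20 : ModularCurve.genusFormula N ≤ (Module.finrank ℂ (CuspForm (Gamma0 N) 2) : ℚ))
    {S : Set ℕ} {ι : Type*} (b : ι → CuspForm.heckeAlgebra N 2 S)
    (hind : LinearIndependent ℤ b) :
    LinearIndependent ℂ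
      (fun i => ((b i : CuspForm.heckeAlgebra N 2 S) : Module.End ℂ (CuspForm (Gamma0 N) 2))) := by
  refine linearIndependent_complex_of_mem_heckeAlgebra N h20 _ (fun i => (b i).2) ?_
  have := hind.map' ((CuspForm.heckeAlgebra N 2 S).val.toLinearMap)
    (LinearMap.ker_eq_bot.mpr Subtype.val_injective)
  exact this

end

end IntPeriod
end Fermat.Agent.X0
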