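import Fermat.Agent.X0.Int.Main
import Fermat.Agent.X0.Int.PeriodLattice

/-!
# X0 / Int: `S23` from the lower bound of `S20`

`IntPeriod.hasIntegralStructure_of_genus_le`: if `genusFormula N ≤ dim S₂(Γ₀(N))` then
`S₂(Γ₀(N))` is spanned by forms with integral `q`-expansion (`hasIntegralStructure_of_lattice`
applied to the lattice of periods `IntPeriod.perLattice N`).
-/

set_option autoImplicit false

open CongruenceSubgroup Module

namespace Fermat.Agent.X0
namespace IntPeriod

theorem hasIntegralStructure_of_genus_le (N : ℕ) [NeZero N]
    (h20 : ModularCurve.genusFormula N ≤ (finrank ℂ (CuspForm (Gamma0 N) 2) : ℚ)) :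
    CuspForm.HasIntegralStructure N 2 :=
  hasIntegralStructure_of_lattice N (perLattice N) (perLattice_fg N)
    (span_real_perLattice N) (finrank_perLattice_le_two_mul_finrank N h20)
    (fun _ ht l hl => comp_mem_perLattice_of_mem_heckeAlgebra N ht l hl)

end IntPeriod
end Fermat.Agent.X0
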