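import Mathlib
import Fermat.Agent.S49_Basic
import Fermat.Prelude.Def_CuspForm_IntegralStructure

/-!
# X0 / Int / I2: the pairing between the Hecke algebra and `S₂(Γ₀(N))`

* `exists_hecke_qCoeff` : for every `n ≥ 1` there is `t` in the Hecke algebra `T_ℤ` (all `T_ℓ`,
  `ℓ ∤ N`, and `U_q`, `q ∣ N`) with `a_n(f) = a_1(t f)` for all `f`;
* `exists_hecke_qCoeff_one_ne_zero` : `f ≠ 0 ⇒ ∃ t ∈ T_ℤ, a_1(t f) ≠ 0`;
* `hasIntegralStructure_of_basis` : if a finite family spanning `T_ℤ` over `ℤ` is linearly
  independent over `ℂ`, then `S₂(Γ₀(N))` is spanned by forms with integral `q`-expansion.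
-/

set_option autoImplicit false

open CongruenceSubgroup ModularFormClass

namespace Fermat.Agent.X0

open Fermat.Agent.S49

variable {N : ℕ} [NeZero N]

/-- For every `n ≥ 1`, the functional `a_n` is `a_1 ∘ t` for some `t` in the Hecke algebra. -/
theorem exists_hecke_qCoeff (n : ℕ) (hn : 1 ≤ n) :
    ∃ t ∈ CuspForm.heckeAlgebra N 2 ∅, ∀ f : CuspForm (Gamma0 N) 2,
      qCoeff f n = qCoeff (t f) 1 := by
  induction n using Nat.strong_induction_on with
  | _ n ih =>
    rcases Nat.lt_or_ge 1 n with h1 | h1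
    · -- `n > 1`: split off the smallest prime factor
      have hp : (n.minFac).Prime := Nat.minFac_prime (by omega)
      set p := n.minFac with hpdef
      obtain ⟨m, hm⟩ : p ∣ n := Nat.minFac_dvd n
      have hm1 : 1 ≤ m := by
        rcases Nat.eq_zero_or_pos m with h0 | h0
        · rw [h0, mul_zero] at hm
          omega
        · exact h0
      have hmn : m < n := by
        rw [hm]
        exact lt_mul_of_one_lt_left (by omega) hp.one_lt
      have hnmp : n = m * p := by rw [hm, mul_comm]
      obtain ⟨tm, htm, htm'⟩ := ih m hmn hm1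
      by_cases hpN : p ∣ N
      · refine ⟨tm * CuspForm.heckeULin 2 hpN,
          mul_mem htm (CuspForm.heckeULin_mem_heckeAlgebra hp hpN (Set.notMem_empty p)),
          fun f => ?_⟩
        rw [Module.End.mul_apply, ← htm', qCoeff_heckeULin hpN hp.ne_zero, hnmp]
      · by_cases hpm : p ∣ m
        · have hmp1 : 1 ≤ m / p := Nat.div_pos (Nat.le_of_dvd hm1 hpm) hp.pos
          have hmpn : m / p < n := lt_of_le_of_lt (Nat.div_le_self m p) hmn
          obtain ⟨tq, htq, htq'⟩ := ih (m / p) hmpn hmp1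
          refine ⟨tm * CuspForm.heckeTLin 2 hp hpN - (p : ℤ) • tq,
            sub_mem (mul_mem htm
              (CuspForm.heckeTLin_mem_heckeAlgebra hp hpN (Set.notMem_empty p)))
              (Subalgebra.zsmul_mem _ htq _), fun f => ?_⟩
          rw [LinearMap.sub_apply, qCoeff_sub, Module.End.mul_apply, ← htm',
            qCoeff_heckeTLin hp hpN, if_pos hpm, LinearMap.smul_apply]
          have e1 : qCoeff (⇑((p : ℤ) • tq f)) 1 = (p : ℂ) * qCoeff (⇑(tq f)) 1 := by
            have := map_zsmul (qCoeffLin N 2 1) (p : ℤ) (tq f)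
            rw [qCoeffLin_apply, qCoeffLin_apply, zsmul_eq_mul, Int.cast_natCast] at this
            exact this
          rw [e1, ← htq', hnmp]
          norm_num
        · refine ⟨tm * CuspForm.heckeTLin 2 hp hpN,
            mul_mem htm (CuspForm.heckeTLin_mem_heckeAlgebra hp hpN (Set.notMem_empty p)),
            fun f => ?_⟩
          rw [Module.End.mul_apply, ← htm', qCoeff_heckeTLin hp hpN, if_neg hpm, add_zero,
            hnmp]
    · have : n = 1 := by omega
      subst this
      exact ⟨1, one_mem _, fun f => rfl⟩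

/-- A nonzero cusp form is detected by `a_1 ∘ t` for some Hecke operator `t`. -/
theorem exists_hecke_qCoeff_one_ne_zero {f : CuspForm (Gamma0 N) 2} (hf : f ≠ 0) :
    ∃ t ∈ CuspForm.heckeAlgebra N 2 ∅, qCoeff (t f) 1 ≠ 0 := by
  by_contra hcon
  push Not at hcon
  apply hf
  apply eq_zero_of_qCoeff_eq_zero
  intro n
  rcases Nat.eq_zero_or_pos n with rfl | hn
  · exact qCoeff_zero_index f
  · obtain ⟨t, ht, ht'⟩ := exists_hecke_qCoeff (N := N) n hn
    rw [ht' f]
    exact hcon t ht

/-- Elements of the Hecke algebra commute. -/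
theorem heckeAlgebra_mul_comm {S : Set ℕ} {k : ℤ}
    {a b : Module.End ℂ (CuspForm (Gamma0 N) k)}
    (ha : a ∈ CuspForm.heckeAlgebra N k S) (hb : b ∈ CuspForm.heckeAlgebra N k S) :
    a * b = b * a :=
  congrArg Subtype.val (mul_comm (⟨a, ha⟩ : CuspForm.heckeAlgebra N k S) ⟨b, hb⟩)

section final

variable {ι : Type*} [Fintype ι] (b : ι → Module.End ℂ (CuspForm (Gamma0 N) 2))

/-- The map `f ↦ (a_1(b_i f))_i`. -/
noncomputable def pairingMap : CuspForm (Gamma0 N) 2 →ₗ[ℂ] (ι → ℂ) :=
  LinearMap.pi fun i => (qCoeffLin N 2 1).comp (b i)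

@[simp] theorem pairingMap_apply (f : CuspForm (Gamma0 N) 2) (i : ι) :
    pairingMap b f i = qCoeff (b i f) 1 := rfl

variable {b}

theorem qCoeff_one_sum_zsmul (z : ι → ℤ) (f : CuspForm (Gamma0 N) 2) :
    qCoeff ((∑ i, z i • b i) f) 1 = ∑ i, (z i : ℂ) * pairingMap b f i := by
  rw [LinearMap.sum_apply]
  have := map_sum (qCoeffLin N 2 1) (fun i => (z i • b i) f) Finset.univ
  rw [qCoeffLin_apply] at this
  rw [this]
  refine Finset.sum_congr rfl fun i _ => ?_
  rw [LinearMap.smul_apply]
  have := map_zsmul (qCoeffLin N 2 1) (z i) (b i f)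
  rw [zsmul_eq_mul] at this
  rw [this, pairingMap_apply, qCoeffLin_apply]

theorem qCoeff_one_sum_smul (c : ι → ℂ) (f : CuspForm (Gamma0 N) 2) :
    qCoeff ((∑ i, c i • b i) f) 1 = ∑ i, c i * pairingMap b f i := by
  rw [LinearMap.sum_apply]
  have := map_sum (qCoeffLin N 2 1) (fun i => (c i • b i) f) Finset.univ
  rw [qCoeffLin_apply] at this
  rw [this]
  refine Finset.sum_congr rfl fun i _ => ?_
  rw [LinearMap.smul_apply]
  have := map_smul (qCoeffLin N 2 1) (c i) (b i f)
  rw [smul_eq_mul] at this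
  rw [this, pairingMap_apply, qCoeffLin_apply]

theorem pairingMap_injective
    (hspan : ∀ t ∈ CuspForm.heckeAlgebra N 2 ∅, ∃ z : ι → ℤ, t = ∑ i, z i • b i) :
    Function.Injective (pairingMap b) := by
  rw [injective_iff_map_eq_zero]
  intro f hf
  by_contra hne
  obtain ⟨t, ht, ht'⟩ := exists_hecke_qCoeff_one_ne_zero hne
  obtain ⟨z, rfl⟩ := hspan t ht
  apply ht'
  rw [qCoeff_one_sum_zsmul, hf]
  simp

theorem pairingMap_surjective (hb : ∀ i, b i ∈ CuspForm.heckeAlgebra N 2 ∅)
    (hind : LinearIndependent ℂ b) : Function.Surjective (pairingMap b) := by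
  classical
  rw [← LinearMap.range_eq_top]
  by_contra hne
  obtain ⟨l, hl0, hl⟩ := Submodule.exists_le_ker_of_lt_top _ (lt_top_iff_ne_top.mpr hne)
  apply hl0
  set c : ι → ℂ := fun i => l (Pi.single i 1) with hc
  have hlc : ∀ v : ι → ℂ, l v = ∑ i, c i * v i := by
    intro v
    conv_lhs => rw [← Finset.univ_sum_single v]
    rw [map_sum]
    refine Finset.sum_congr rfl fun i _ => ?_
    have : (Pi.single i (v i) : ι → ℂ) = v i • Pi.single i 1 := by
      rw [← Pi.single_smul, smul_eq_mul, mul_one]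
    rw [this, map_smul, smul_eq_mul, mul_comm]
  set T : Module.End ℂ (CuspForm (Gamma0 N) 2) := ∑ i, c i • b i with hT
  have hT1 : ∀ f, qCoeff (T f) 1 = 0 := by
    intro f
    rw [hT, qCoeff_one_sum_smul, ← hlc]
    exact hl (LinearMap.mem_range_self _ f)
  have hcomm : ∀ t' ∈ CuspForm.heckeAlgebra N 2 ∅, t' * T = T * t' := by
    intro t' ht'
    rw [hT, Finset.mul_sum, Finset.sum_mul]
    refine Finset.sum_congr rfl fun i _ => ?_
    rw [mul_smul_comm, smul_mul_assoc, heckeAlgebra_mul_comm ht' (hb i)]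
  have hT0 : T = 0 := by
    ext f : 1
    by_contra hne'
    obtain ⟨t', ht', ht''⟩ := exists_hecke_qCoeff_one_ne_zero (f := T f) hne'
    apply ht''
    have : t' (T f) = T (t' f) := by
      rw [← Module.End.mul_apply, hcomm t' ht', Module.End.mul_apply]
    rw [this]
    exact hT1 _
  have hc0 : ∀ i, c i = 0 := by
    have := Fintype.linearIndependent_iff.mp hind c
    exact this hT0
  refine LinearMap.ext fun v => ?_
  rw [hlc]
  simp [hc0]

/-- **The final form of the duality argument**: if a finite family which spans the Hecke algebra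
`T_ℤ` over `ℤ` is linearly independent over `ℂ`, then `S₂(Γ₀(N))` has a basis of forms with
integral `q`-expansions. -/
theorem hasIntegralStructure_of_basis (hb : ∀ i, b i ∈ CuspForm.heckeAlgebra N 2 ∅)
    (hspan : ∀ t ∈ CuspForm.heckeAlgebra N 2 ∅, ∃ z : ι → ℤ, t = ∑ i, z i • b i)
    (hind : LinearIndependent ℂ b) : CuspForm.HasIntegralStructure N 2 := by
  classical
  set e := LinearEquiv.ofBijective (pairingMap b)
    ⟨pairingMap_injective hspan, pairingMap_surjective hb hind⟩ with he
  have he_apply : ∀ f, e f = pairingMap b f := fun f => rfl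
  set F : ι → CuspForm (Gamma0 N) 2 := fun j => e.symm (Pi.single j 1) with hF
  have hFpair : ∀ i j, pairingMap b (F j) i = if i = j then 1 else 0 := by
    intro i j
    rw [← he_apply, hF]
    simp only [LinearEquiv.apply_symm_apply]
    rw [Pi.single_apply]
  have hFint : ∀ j, F j ∈ CuspForm.intLattice N 2 := by
    intro j
    apply Submodule.subset_span
    intro n
    rcases Nat.eq_zero_or_pos n with rfl | hn
    · exact ⟨0, by rw [qCoeff_zero_index]; simp⟩
    · obtain ⟨t, ht, ht'⟩ := exists_hecke_qCoeff (N := N) n hn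
      obtain ⟨z, rfl⟩ := hspan t ht
      refine ⟨z j, ?_⟩
      rw [ht' (F j), qCoeff_one_sum_zsmul]
      simp only [hFpair]
      simp
  unfold CuspForm.HasIntegralStructure
  rw [eq_top_iff]
  intro f _
  have hf : f = ∑ j, pairingMap b f j • F j := by
    apply e.injective
    rw [map_sum]
    simp only [map_smul, hF, LinearEquiv.apply_symm_apply]
    rw [he_apply]
    exact (Finset.univ_sum_single (pairingMap b f)).symm.trans
      (Finset.sum_congr rfl fun j _ => by
        rw [← Pi.single_smul, smul_eq_mul, mul_one])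
  rw [hf]
  exact Submodule.sum_mem _ fun j _ =>
    Submodule.smul_mem _ _ (Submodule.subset_span (hFint j))

end final


end Fermat.Agent.X0
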