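import Fermat.Agent.S22
import Fermat.Agent.X0.ES.Main
import Fermat.Agent.X0.Int.Lattice
import Fermat.Agent.X0.Int.RealStructure
import Fermat.Agent.X0.Int.Pairing

/-!
# X0 / Int / I4: the integral structure on `S₂(Γ₀(N))` from a Hecke stable full lattice

`hasIntegralStructure_of_lattice`: if `Λ ⊆ Hom_ℂ(S₂, ℂ)` is a finitely generated subgroup which
spans over `ℝ`, has rank `≤ 2 dim S₂` and is stable under the Hecke algebra `T_ℤ`, then `S₂(Γ₀(N))`
is spanned by forms with integral `q`-expansion.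
-/

set_option autoImplicit false

open CongruenceSubgroup Module

namespace Fermat.Agent.X0

theorem hasIntegralStructure_of_lattice (N : ℕ) [NeZero N]
    (Λ : Submodule ℤ (Module.Dual ℂ (CuspForm (Gamma0 N) 2))) (hfg : Λ.FG)
    (hspan : Submodule.span ℝ (Λ : Set (Module.Dual ℂ (CuspForm (Gamma0 N) 2))) = ⊤)
    (hrank : finrank ℤ Λ ≤ 2 * finrank ℂ (CuspForm (Gamma0 N) 2))
    (hstab : ∀ t ∈ CuspForm.heckeAlgebra N 2 ∅, ∀ l ∈ Λ, l ∘ₗ t ∈ Λ) :
    CuspForm.HasIntegralStructure N 2 := by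
  haveI : Module.Finite ℂ (CuspForm (Gamma0 N) 2) := finite_cuspForm_Gamma0_two N
  haveI : Module.Finite ℤ (CuspForm.heckeAlgebra N 2 ∅) := Fermat.Agent.S22.result N 2 ∅
  haveI : Module.Free ℤ (CuspForm.heckeAlgebra N 2 ∅) := Module.free_of_finite_type_torsion_free'
  let b' := Module.Free.chooseBasis ℤ (CuspForm.heckeAlgebra N 2 ∅)
  haveI : Fintype (Module.Free.ChooseBasisIndex ℤ (CuspForm.heckeAlgebra N 2 ∅)) :=
    Module.Free.ChooseBasisIndex.fintype ℤ _
  set b : Module.Free.ChooseBasisIndex ℤ (CuspForm.heckeAlgebra N 2 ∅) →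
      Module.End ℂ (CuspForm (Gamma0 N) 2) := fun i => (b' i : Module.End ℂ _) with hb
  have hbmem : ∀ i, b i ∈ CuspForm.heckeAlgebra N 2 ∅ := fun i => (b' i).2
  have hbspan : ∀ t ∈ CuspForm.heckeAlgebra N 2 ∅,
      ∃ z : Module.Free.ChooseBasisIndex ℤ (CuspForm.heckeAlgebra N 2 ∅) → ℤ,
        t = ∑ i, z i • b i := by
    intro t ht
    refine ⟨fun i => b'.repr ⟨t, ht⟩ i, ?_⟩
    have := b'.sum_repr ⟨t, ht⟩
    have h2 := congrArg Subtype.val this
    simp only [AddSubmonoidClass.coe_finsetSum, SetLike.val_smul] at h2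
    exact h2.symm
  have hbindZ : LinearIndependent ℤ b := by
    have h1 : LinearIndependent ℤ (fun i => b' i) := b'.linearIndependent
    have := h1.map' (CuspForm.heckeAlgebra N 2 ∅).val.toLinearMap
      (LinearMap.ker_eq_bot.mpr Subtype.val_injective)
    exact this
  have hbindC : LinearIndependent ℂ b :=
    IntLattice.linearIndependent_complex_of_int Λ hfg hspan hrank (conjFormR N 2)
      conjFormR_I_smul (conjFormR_surjective N 2) b (fun i => hstab (b i) (hbmem i))
      (fun i v => ((commutesConj_of_mem_heckeAlgebra (hbmem i)) v).symm) hbindZ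
  exact hasIntegralStructure_of_basis hbmem hbspan hbindC

end Fermat.Agent.X0
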